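import Fermat.Agent.MatroidIntersection.Basic

/-!
# Unions of independent sets

The union of matroids is the intersection of their sum, on one copy of the ground set for each,
with the partition matroid of the copies of each element.
-/

set_option autoImplicit false

noncomputable section

namespace FA.MatroidUnion

open Finset
open FA.MatroidIntersection (IsRankFn rankOf coe_rankOf indep_iff_rankOf isRankFn_rankOf
  isRankFn_image isRankFn_card exists_common_of_le)

variable {α ι : Type*} [DecidableEq α] [DecidableEq ι]

/-- The `i`th layer of a set of pairs. -/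
def layer (i : ι) (X : Finset (ι × α)) : Finset α := (X.filter fun p => p.1 = i).image Prod.snd

theorem mem_layer {i : ι} {X : Finset (ι × α)} {a : α} : a ∈ layer i X ↔ (i, a) ∈ X := by
  simp [layer]

theorem card_layer (i : ι) (X : Finset (ι × α)) :
    #(layer i X) = #(X.filter fun p => p.1 = i) := by
  refine card_image_of_injOn fun p hp q hq h => ?_
  exact Prod.ext ((mem_filter.1 hp).2.trans (mem_filter.1 hq).2.symm) h

variable [Fintype ι]

theorem sum_card_layer (X : Finset (ι × α)) : ∑ i, #(layer i X) = #X := by
  simp only [card_layer]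
  exact (card_eq_sum_card_fiberwise fun p _ => mem_univ p.1).symm

/-- The rank function of a sum of matroids on the pairs. -/
theorem isRankFn_sum {r : ι → Finset α → ℕ} (hr : ∀ i, IsRankFn (r i)) :
    IsRankFn fun X : Finset (ι × α) => ∑ i, r i (layer i X) where
  empty := by simp [layer, fun i => (hr i).empty]
  mono X Y h := sum_le_sum fun i _ => (hr i).mono fun a ha => mem_layer.2 (h (mem_layer.1 ha))
  insert_le X p := by
    have h : ∀ i, r i (layer i (insert p X)) ≤ r i (layer i X) + if i = p.1 then 1 else 0 := by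
      intro i
      by_cases hi : i = p.1
      · rw [if_pos hi, show layer i (insert p X) = insert p.2 (layer i X) by
          ext a; simp [mem_layer, hi, Prod.ext_iff]]
        exact (hr i).insert_le _ _
      · rw [if_neg hi, show layer i (insert p X) = layer i X by
          ext a; simp [mem_layer, Prod.ext_iff, hi]]
        exact le_rfl
    refine (sum_le_sum fun i _ => h i).trans ?_
    rw [sum_add_distrib, sum_ite_eq' univ p.1 fun _ => 1, if_pos (mem_univ _)]
  submod X Y := by
    simp only [← sum_add_distrib]
    refine sum_le_sum fun i _ => ?_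
    rw [show layer i (X ∪ Y) = layer i X ∪ layer i Y by ext a; simp [mem_layer],
      show layer i (X ∩ Y) = layer i X ∩ layer i Y by ext a; simp [mem_layer]]
    exact (hr i).submod _ _

omit [DecidableEq ι] in
/-- The union of independent sets is small. -/
theorem card_biUnion_le (M : ι → Matroid α) (S U : Finset α) (I : ι → Finset α)
    (hI : ∀ i, I i ⊆ S) (hM : ∀ i, (M i).Indep (I i : Set α)) :
    #(univ.biUnion I) ≤ #(S \ U) + ∑ i, rankOf (M i) U := by
  have h1 : univ.biUnion I ⊆ (S \ U) ∪ univ.biUnion fun i => I i ∩ U := by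
    intro a ha
    obtain ⟨i, -, hai⟩ := mem_biUnion.1 ha
    by_cases hU : a ∈ U
    · exact mem_union_right _ (mem_biUnion.2 ⟨i, mem_univ i, mem_inter.2 ⟨hai, hU⟩⟩)
    · exact mem_union_left _ (mem_sdiff.2 ⟨hI i hai, hU⟩)
  refine ((card_le_card h1).trans (card_union_le _ _)).trans (Nat.add_le_add_left ?_ _)
  refine Finset.card_biUnion_le.trans (sum_le_sum fun i _ => ?_)
  rw [← (indep_iff_rankOf (M i) _).1 ((hM i).subset (by simp))]
  exact (isRankFn_rankOf (M i)).mono inter_subset_right

omit [DecidableEq ι] in
/-- Disjoint independent sets of large total size. -/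
theorem exists_disjoint (M : ι → Matroid α) (S : Finset α) {t : ℕ}
    (ht : ∀ U ⊆ S, t ≤ #(S \ U) + ∑ i, rankOf (M i) U) :
    ∃ I : ι → Finset α, (∀ i, I i ⊆ S) ∧ (∀ i, (M i).Indep (I i : Set α)) ∧
      (Pairwise fun i j => Disjoint (I i) (I j)) ∧ t ≤ ∑ i, #(I i) := by
  classical
  set P : Finset (ι × α) := univ ×ˢ S
  have hr₁ := isRankFn_sum fun i => isRankFn_rankOf (M i)
  obtain ⟨I, hI, hcard, h1, h2⟩ := exists_common_of_le hr₁
    (isRankFn_image isRankFn_card Prod.snd) P (k := t) fun W hW => by
      set U := S \ (P \ W).image Prod.snd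
      have hU : ∀ i, U ⊆ layer i W := fun i a ha => by
        obtain ⟨haS, ha'⟩ := mem_sdiff.1 ha
        by_contra hW'
        exact ha' (mem_image.2 ⟨(i, a), mem_sdiff.2 ⟨mem_product.2 ⟨mem_univ i, haS⟩,
          fun h => hW' (mem_layer.2 h)⟩, rfl⟩)
      have h1 : S \ U ⊆ (P \ W).image Prod.snd := fun a ha => by
        obtain ⟨haS, ha'⟩ := mem_sdiff.1 ha
        by_contra h
        exact ha' (mem_sdiff.2 ⟨haS, h⟩)
      have h2 := card_le_card h1
      have h3 : ∑ i, rankOf (M i) U ≤ ∑ i, rankOf (M i) (layer i W) :=
        sum_le_sum fun i _ => (isRankFn_rankOf (M i)).mono (hU i)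
      have := ht U sdiff_subset
      omega
  have hle : ∀ i, rankOf (M i) (layer i I) ≤ #(layer i I) := fun i => by
    have := (M i).eRk_le_encard (layer i I : Set α)
    rwa [← coe_rankOf, Set.encard_coe_eq_coe_finsetCard, Nat.cast_le] at this
  have hinj : Set.InjOn Prod.snd (I : Set (ι × α)) := card_image_iff.1 h2
  refine ⟨fun i => layer i I, fun i a ha => (mem_product.1 (hI (mem_layer.1 ha))).2, fun i => ?_,
    fun i j hij => disjoint_left.2 fun a ha hb => hij ?_, hcard.trans_eq (sum_card_layer I).symm⟩
  · rw [indep_iff_rankOf]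
    exact (sum_eq_sum_iff_of_le fun i _ => hle i).1 (h1.trans (sum_card_layer I).symm) i
      (mem_univ i)
  · exact congrArg Prod.fst (hinj (mem_coe.2 (mem_layer.1 ha)) (mem_coe.2 (mem_layer.1 hb)) rfl)

end FA.MatroidUnion
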